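/-
S58 support (block E1, count of `E(𝔽_ℓ)`): Frobenius-fixed elements and points.
* `mem_range_algebraMap_of_pow_eq` : in any field `L ⊇ 𝔽_ℓ`, `u ^ ℓ = u` forces `u ∈ 𝔽_ℓ`.
* `mem_range_baseChange_of_map_eq` : a point of `E(L)` fixed by the coordinatewise Frobenius comes
  from `E(𝔽_ℓ)`.
* `map_baseChange_eq` : conversely points coming from `E(𝔽_ℓ)` are fixed.
All declarations live in `Fermat.Agent.S58lib.Cnt`.
-/
import Mathlib

set_option autoImplicit false

namespace Fermat.Agent.S58lib.Cnt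

open Polynomial WeierstrassCurve WeierstrassCurve.Affine

variable {ℓ : ℕ} [Fact ℓ.Prime] {L : Type*} [Field L] [Algebra (ZMod ℓ) L]

/-- In a field containing `𝔽_ℓ`, the solutions of `u ^ ℓ = u` are exactly the elements of `𝔽_ℓ`. -/
theorem mem_range_algebraMap_of_pow_eq {u : L} (h : u ^ ℓ = u) :
    u ∈ (algebraMap (ZMod ℓ) L).range := by
  classical
  have hℓ : 1 < ℓ := (Fact.out : ℓ.Prime).one_lt
  set p : L[X] := X ^ ℓ - X with hp
  have hp0 : p ≠ 0 := FiniteField.X_pow_card_sub_X_ne_zero L hℓ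
  have hdeg : p.natDegree = ℓ := FiniteField.X_pow_card_sub_X_natDegree_eq L hℓ
  set S : Finset L := Finset.univ.image (algebraMap (ZMod ℓ) L) with hS
  have hScard : S.card = ℓ := by
    rw [hS, Finset.card_image_of_injective _ (algebraMap (ZMod ℓ) L).injective, Finset.card_univ,
      ZMod.card]
  have hSsub : S ⊆ p.roots.toFinset := by
    intro w hw
    rw [hS, Finset.mem_image] at hw
    obtain ⟨c, -, rfl⟩ := hw
    rw [Multiset.mem_toFinset, mem_roots hp0, IsRoot, hp, eval_sub, eval_pow, eval_X, ← map_pow,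
      ZMod.pow_card, sub_self]
  have hle : p.roots.toFinset.card ≤ S.card := by
    rw [hScard]
    calc p.roots.toFinset.card ≤ p.roots.card := Multiset.toFinset_card_le _
      _ ≤ p.natDegree := card_roots' p
      _ = ℓ := hdeg
  have heq : S = p.roots.toFinset := Finset.eq_of_subset_of_card_le hSsub hle
  have hu : u ∈ p.roots.toFinset := by
    rw [Multiset.mem_toFinset, mem_roots hp0, IsRoot, hp, eval_sub, eval_pow, eval_X, h, sub_self]
  rw [← heq, hS, Finset.mem_image] at hu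
  obtain ⟨c, -, hc⟩ := hu
  exact ⟨c, hc⟩

variable [DecidableEq L] (W : Affine (ZMod ℓ))

/-- A point fixed by the coordinatewise Frobenius comes from `E(𝔽_ℓ)`. -/
theorem mem_range_baseChange_of_map_eq (F : L →ₐ[ZMod ℓ] L) (hF : ∀ u, F u = u ^ ℓ)
    (P : (W⁄L).Point) (h : Point.map F P = P) :
    P ∈ (Point.baseChange (W' := W) (ZMod ℓ) L).range := by
  rcases P with _ | ⟨x, y, hxy⟩
  · exact ⟨0, rfl⟩
  · rw [Point.map_some] at h
    have hx : F x = x := (Point.some.inj h).1
    have hy : F y = y := (Point.some.inj h).2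
    rw [hF] at hx hy
    obtain ⟨x₀, rfl⟩ := mem_range_algebraMap_of_pow_eq hx
    obtain ⟨y₀, rfl⟩ := mem_range_algebraMap_of_pow_eq hy
    have h0 : (W⁄(ZMod ℓ)).Nonsingular x₀ y₀ :=
      (W.baseChange_nonsingular (Algebra.ofId (ZMod ℓ) L).injective x₀ y₀).mp hxy
    exact ⟨Point.some _ _ h0, rfl⟩

/-- Points coming from `E(𝔽_ℓ)` are fixed by any `𝔽_ℓ`-algebra endomorphism. -/
theorem map_baseChange_eq (F : L →ₐ[ZMod ℓ] L) (P : (W⁄(ZMod ℓ)).Point) :
    Point.map F (Point.baseChange (ZMod ℓ) L P) = Point.baseChange (ZMod ℓ) L P :=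
  Point.map_baseChange F P

end Fermat.Agent.S58lib.Cnt
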