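/-
S58 support (block E1, count of `E(𝔽_ℓ)`): a valuation "at infinity".
* `exists_valuationSubring_not_mem` : for `x` transcendental over `k` there is a valuation subring
  of `K` containing `k` but not `x`.
* `val_aeval_eq` : if `v` is `≤ 1` on `k` and `1 < v x`, then `v (A(x)) = v x ^ deg A`.
All declarations live in `Fermat.Agent.S58lib.Cnt`.
-/
import Mathlib

set_option autoImplicit false

namespace Fermat.Agent.S58lib.Cnt

open Polynomial

variable {k K : Type*} [Field k] [Field K] [Algebra k K]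

/-- If `x` is a polynomial in `x⁻¹` over `k`, then `x` is algebraic over `k`. -/
theorem isAlgebraic_of_mem_adjoin_inv {x : K} (hx0 : x ≠ 0)
    (h : x ∈ Algebra.adjoin k ({x⁻¹} : Set K)) : IsAlgebraic k x := by
  rw [Algebra.adjoin_singleton_eq_range_aeval] at h
  obtain ⟨q, hq⟩ := h
  -- `q(x⁻¹) = x`, so `x^(n+1) = (reverse q)(x)`
  have hq' : aeval x⁻¹ q = x := hq
  set n := q.natDegree with hn
  have key : aeval x (q.reverse) = x ^ (n + 1) := by
    let _i : Invertible x⁻¹ := invertibleOfNonzero (inv_ne_zero hx0)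
    have h1 := eval₂_reverse_mul_pow (algebraMap k K) x⁻¹ q
    rw [invOf_eq_inv, inv_inv, ← aeval_def, ← aeval_def, hq'] at h1
    have hxn : x⁻¹ ^ n ≠ 0 := pow_ne_zero _ (inv_ne_zero hx0)
    have h2 : aeval x q.reverse = x * (x⁻¹ ^ n)⁻¹ := by
      have h3 : aeval x q.reverse * x⁻¹ ^ n * (x⁻¹ ^ n)⁻¹ = x * (x⁻¹ ^ n)⁻¹ := by
        rw [hn, h1]
      rw [← h3, mul_assoc, mul_inv_cancel₀ hxn, mul_one]
    rw [h2, inv_pow, inv_inv, pow_succ]
    ring
  refine ⟨X ^ (n + 1) - q.reverse, ?_, ?_⟩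
  · intro h0
    have hdeg : (q.reverse).natDegree ≤ n := reverse_natDegree_le q
    have : (X ^ (n + 1) - q.reverse).natDegree = n + 1 := by
      rw [natDegree_sub_eq_left_of_natDegree_lt]
      · simp
      · simp only [natDegree_X_pow]
        omega
    rw [h0] at this
    simp at this
  · simp [key]

/-- A valuation subring "at infinity": it contains `k` and does not contain `x`. -/
theorem exists_valuationSubring_not_mem {x : K} (hx : Transcendental k x) :
    ∃ V : ValuationSubring K, (∀ c : k, algebraMap k K c ∈ V) ∧ x ∉ V := by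
  have hx0 : x ≠ 0 := by
    rintro rfl
    exact hx (isAlgebraic_zero)
  set B : Subalgebra k K := Algebra.adjoin k ({x⁻¹} : Set K) with hB
  let xinv : B.toSubring := ⟨x⁻¹, Algebra.subset_adjoin rfl⟩
  have hI : Ideal.span ({xinv} : Set B.toSubring) ≠ ⊤ := by
    intro htop
    have h1 : (1 : B.toSubring) ∈ Ideal.span ({xinv} : Set B.toSubring) := by
      rw [htop]; trivial
    obtain ⟨b, hb⟩ := Ideal.mem_span_singleton'.mp h1
    have hb' : (b : K) * x⁻¹ = 1 := congrArg Subtype.val hb
    have hbx : (b : K) = x := by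
      field_simp at hb'
      exact hb'
    apply hx
    apply isAlgebraic_of_mem_adjoin_inv hx0
    have hbm : (b : K) ∈ B := b.2
    rw [hbx] at hbm
    exact hbm
  obtain ⟨V, hV1, hV2⟩ := Ideal.image_subset_nonunits_valuationSubring _ hI
  refine ⟨V, fun c => hV1 (B.algebraMap_mem c), ?_⟩
  have : x⁻¹ ∈ V.nonunits := hV2 ⟨xinv, Ideal.subset_span rfl, rfl⟩
  exact (V.inv_mem_nonunits_iff.mp this).resolve_left hx0

variable {Γ₀ : Type*} [LinearOrderedCommGroupWithZero Γ₀] (v : Valuation K Γ₀)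

/-- If `v ≤ 1` on `k` then `v = 1` on `kˣ`. -/
theorem val_algebraMap_eq_one (hk : ∀ c : k, v (algebraMap k K c) ≤ 1) {c : k} (hc : c ≠ 0) :
    v (algebraMap k K c) = 1 := by
  apply le_antisymm (hk c)
  have h1 : v (algebraMap k K c) * v (algebraMap k K c⁻¹) = 1 := by
    rw [← map_mul, ← map_mul, mul_inv_cancel₀ hc, map_one, map_one]
  by_contra hlt
  rw [not_le] at hlt
  have : v (algebraMap k K c) * v (algebraMap k K c⁻¹) < 1 := by
    calc v (algebraMap k K c) * v (algebraMap k K c⁻¹) ≤ v (algebraMap k K c) * 1 :=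
          mul_le_mul' le_rfl (hk _)
      _ = v (algebraMap k K c) := mul_one _
      _ < 1 := hlt
  rw [h1] at this
  exact lt_irrefl _ this

/-- The degree valuation: `v (A(x)) = v x ^ deg A` when `v ≤ 1` on `k` and `1 < v x`. -/
theorem val_aeval_eq (hk : ∀ c : k, v (algebraMap k K c) ≤ 1) {x : K} (hx : 1 < v x)
    {A : k[X]} (hA : A ≠ 0) : v (aeval x A) = v x ^ A.natDegree := by
  have hx0 : (0 : Γ₀) < v x := lt_trans zero_lt_one hx
  rw [aeval_eq_sum_range, Finset.sum_range_succ]
  have hlead : v (A.coeff A.natDegree • x ^ A.natDegree) = v x ^ A.natDegree := by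
    have hc : A.coeff A.natDegree ≠ 0 := by
      rw [coeff_natDegree]; exact leadingCoeff_ne_zero.mpr hA
    rw [Algebra.smul_def, map_mul, map_pow, val_algebraMap_eq_one v hk hc, one_mul]
  have hrest : v (∑ i ∈ Finset.range A.natDegree, A.coeff i • x ^ i) < v x ^ A.natDegree := by
    apply Valuation.map_sum_lt v (pow_ne_zero _ hx0.ne')
    intro i hi
    rw [Finset.mem_range] at hi
    rw [Algebra.smul_def, map_mul, map_pow]
    calc v (algebraMap k K (A.coeff i)) * v x ^ i ≤ 1 * v x ^ i := mul_le_mul' (hk _) le_rfl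
      _ = v x ^ i := one_mul _
      _ < v x ^ A.natDegree := pow_lt_pow_right₀ hx hi
  rw [Valuation.map_add_eq_of_lt_right v (by rw [hlead]; exact hrest), hlead]

/-- Consequence: if `v (A(x) / B(x)) = v x` then `deg A = deg B + 1`. -/
theorem natDegree_eq_succ_of_val_div (hk : ∀ c : k, v (algebraMap k K c) ≤ 1) {x : K}
    (hx : 1 < v x) {A B : k[X]} (hA : A ≠ 0) (hB : B ≠ 0)
    (h : v (aeval x A / aeval x B) = v x) : A.natDegree = B.natDegree + 1 := by
  have hx0 : (0 : Γ₀) < v x := lt_trans zero_lt_one hx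
  rw [map_div₀, val_aeval_eq v hk hx hA, val_aeval_eq v hk hx hB] at h
  have hB0 : v x ^ B.natDegree ≠ 0 := pow_ne_zero _ hx0.ne'
  have h2 : v x ^ A.natDegree = v x ^ (B.natDegree + 1) := by
    rw [pow_succ', (div_eq_iff hB0).mp h]
  exact (pow_right_strictMono₀ hx).injective h2

end Fermat.Agent.S58lib.Cnt
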