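/-
S58 support (block E1, count of `E(𝔽_ℓ)`): Frobenius, constant points and prime-field points in
helper2's model (`W : Affine k`, points `(W⁄L).Point` for fields `L / k`).
* `frobL L`   : the coordinatewise `ℓ`-power map on `(W⁄L).Point` (`pmap (frobenius L ℓ) _`);
* `constL L`  : `W.Point →+ (W⁄L).Point`;
* `primePt L` : `E.Point →+ (W⁄L).Point` for a model `E` of `W` over `ZMod ℓ`;
* the Frobenius-fixed points of `(W⁄L).Point` are exactly the prime-field points.
All declarations live in `Fermat.Agent.S58lib.Cnt`.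
-/
import Fermat.Agent.S58lib.Lat.PointMap
import Fermat.Agent.S58lib.Cnt.FrobFixed

set_option autoImplicit false
set_option linter.unusedSectionVars false

noncomputable section

namespace Fermat.Agent.S58lib.Cnt

open WeierstrassCurve WeierstrassCurve.Affine Fermat.Agent.S58lib.Lat

universe u v w

variable {k : Type u} [Field k] [DecidableEq k] (W : Affine k)
variable (ℓ : ℕ) [Fact ℓ.Prime] [CharP k ℓ]

/-- `W` is defined over the prime field: it is fixed by the Frobenius of `k`. -/
abbrev FrobFix : Prop := W.map (frobenius k ℓ) = W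

variable {W ℓ}

section L

variable (L : Type v) [Field L] [DecidableEq L] [Algebra k L] [CharP L ℓ]

theorem FrobFix.baseChange (hfix : FrobFix W ℓ) : (W⁄L).map (frobenius L ℓ) = W⁄L := by
  have h1 : (frobenius L ℓ).comp (algebraMap k L) = (algebraMap k L).comp (frobenius k ℓ) := by
    ext a
    simp only [RingHom.comp_apply, frobenius_def, map_pow]
  show (WeierstrassCurve.map (WeierstrassCurve.map W (algebraMap k L)) (frobenius L ℓ))
    = WeierstrassCurve.map W (algebraMap k L)
  rw [WeierstrassCurve.map_map, h1, ← WeierstrassCurve.map_map]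
  exact congrArg (fun V : WeierstrassCurve k => WeierstrassCurve.map V (algebraMap k L)) hfix

/-- the Frobenius endomorphism of `(W⁄L).Point` -/
def frobL (hfix : FrobFix W ℓ) : (W⁄L).Point →+ (W⁄L).Point :=
  pmap (frobenius L ℓ) (hfix.baseChange L)

theorem frobL_some (hfix : FrobFix W ℓ) {x y : L} (h : (W⁄L).Nonsingular x y) :
    ∃ h' : (W⁄L).Nonsingular (x ^ ℓ) (y ^ ℓ),
      frobL L hfix (Point.some x y h) = Point.some (x ^ ℓ) (y ^ ℓ) h' := by
  refine ⟨?_, ?_⟩
  · have := (hfix.baseChange L) ▸
      ((W⁄L).map_nonsingular (frobenius L ℓ).injective x y).mpr h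
    simpa only [frobenius_def] using this
  · rw [frobL, pmap_some]
    rfl

omit [DecidableEq k] [DecidableEq L] in
theorem map_algebraMap_eq : W.map (algebraMap k L) = W⁄L := rfl

/-- constant points -/
def constL : W.Point →+ (W⁄L).Point := pmap (algebraMap k L) (map_algebraMap_eq L)

theorem constL_some {x y : k} (h : W.Nonsingular x y) :
    ∃ h' : (W⁄L).Nonsingular (algebraMap k L x) (algebraMap k L y),
      constL L (Point.some x y h) = Point.some (algebraMap k L x) (algebraMap k L y) h' := by
  refine ⟨(W.map_nonsingular (algebraMap k L).injective x y).mpr h, ?_⟩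
  rw [constL, pmap_some]

theorem constL_injective : Function.Injective (constL (W := W) L) := pmap_injective _ _

end L

section Maps

variable {L : Type v} [Field L] [DecidableEq L] [Algebra k L] [CharP L ℓ]
variable {L' : Type w} [Field L'] [DecidableEq L'] [Algebra k L'] [CharP L' ℓ]

/-- `Point.map` of a `k`-algebra homomorphism commutes with Frobenius. -/
theorem map_frobL (hfix : FrobFix W ℓ) (ι : L →ₐ[k] L') (P : (W⁄L).Point) :
    Point.map (W' := W) ι (frobL L hfix P) = frobL L' hfix (Point.map (W' := W) ι P) := by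
  rcases P with _ | ⟨x, y, h⟩
  · change (Point.map (W' := W) ι) (frobL L hfix 0) = frobL L' hfix (Point.map (W' := W) ι 0)
    simp only [map_zero]
  · obtain ⟨h1, e1⟩ := frobL_some L hfix h
    rw [Point.map_some]
    obtain ⟨h2, e2⟩ := frobL_some L' hfix
      ((W.baseChange_nonsingular ι.injective x y).mpr h)
    rw [e1, e2, Point.map_some]
    simp only [map_pow]

/-- `Point.map` of a `k`-algebra homomorphism fixes constant points. -/
theorem map_constL (ι : L →ₐ[k] L') (P : W.Point) :
    Point.map (W' := W) ι (constL L P) = constL L' P := by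
  rcases P with _ | ⟨x, y, h⟩
  · change (Point.map (W' := W) ι) (constL L 0) = constL L' 0
    simp only [map_zero]
  · obtain ⟨h1, e1⟩ := constL_some L h
    obtain ⟨h2, e2⟩ := constL_some L' h
    rw [e1, e2, Point.map_some]
    simp only [AlgHom.commutes]

end Maps

/-! ### Frobenius on `W.Point` and the operators `r + s φ` -/

section Psi

/-- the Frobenius endomorphism of `W.Point` -/
def frobk (hfix : FrobFix W ℓ) : W.Point →+ W.Point := pmap (frobenius k ℓ) hfix

theorem frobk_some (hfix : FrobFix W ℓ) {x y : k} (h : W.Nonsingular x y) :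
    ∃ h' : W.Nonsingular (x ^ ℓ) (y ^ ℓ),
      frobk hfix (Point.some x y h) = Point.some (x ^ ℓ) (y ^ ℓ) h' := by
  refine ⟨?_, ?_⟩
  · have := hfix ▸ (W.map_nonsingular (frobenius k ℓ).injective x y).mpr h
    simpa only [frobenius_def] using this
  · rw [frobk, pmap_some]
    rfl

variable (L : Type v) [Field L] [DecidableEq L] [Algebra k L] [CharP L ℓ]

/-- Frobenius commutes with the inclusion of constant points -/
theorem frobL_constL (hfix : FrobFix W ℓ) (C : W.Point) :
    frobL L hfix (constL L C) = constL L (frobk hfix C) := by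
  rcases C with _ | ⟨x, y, h⟩
  · change frobL L hfix (constL L 0) = constL L (frobk hfix 0)
    simp only [map_zero]
  · obtain ⟨h1, e1⟩ := constL_some L h
    obtain ⟨h2, e2⟩ := frobL_some L hfix h1
    obtain ⟨h3, e3⟩ := frobk_some hfix h
    obtain ⟨h4, e4⟩ := constL_some L h3
    rw [e1, e2, e3, e4]
    simp only [map_pow]

/-- the endomorphism `r + s φ` of `(W⁄L).Point` -/
def psiL (hfix : FrobFix W ℓ) (r s : ℤ) : (W⁄L).Point →+ (W⁄L).Point :=
  r • AddMonoidHom.id _ + s • frobL L hfix

/-- the endomorphism `r + s φ` of `W.Point` -/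
def psik (hfix : FrobFix W ℓ) (r s : ℤ) : W.Point →+ W.Point :=
  r • AddMonoidHom.id _ + s • frobk hfix

theorem psiL_apply (hfix : FrobFix W ℓ) (r s : ℤ) (P : (W⁄L).Point) :
    psiL L hfix r s P = r • P + s • frobL L hfix P := rfl

theorem psik_apply (hfix : FrobFix W ℓ) (r s : ℤ) (P : W.Point) :
    psik hfix r s P = r • P + s • frobk hfix P := rfl

theorem psiL_constL (hfix : FrobFix W ℓ) (r s : ℤ) (C : W.Point) :
    psiL L hfix r s (constL L C) = constL L (psik hfix r s C) := by
  rw [psiL_apply, psik_apply, frobL_constL, map_add, map_zsmul, map_zsmul]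

end Psi

section PsiMap

variable {L : Type v} [Field L] [DecidableEq L] [Algebra k L] [CharP L ℓ]
variable {L' : Type w} [Field L'] [DecidableEq L'] [Algebra k L'] [CharP L' ℓ]

theorem map_psiL (hfix : FrobFix W ℓ) (r s : ℤ) (ι : L →ₐ[k] L') (P : (W⁄L).Point) :
    Point.map (W' := W) ι (psiL L hfix r s P) = psiL L' hfix r s (Point.map (W' := W) ι P) := by
  rw [psiL_apply, psiL_apply, map_add, map_zsmul, map_zsmul, map_frobL]

end PsiMap

/-! ### Prime-field points -/

section Prime

variable (E : Affine (ZMod ℓ)) [Algebra (ZMod ℓ) k]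

/-- `E` is a model of `W` over the prime field. -/
abbrev IsModel : Prop := E.map (algebraMap (ZMod ℓ) k) = W

variable {E}

theorem IsModel.frobFix (hE : IsModel (W := W) E) : FrobFix W ℓ := by
  unfold FrobFix
  have h1 : (frobenius k ℓ).comp (algebraMap (ZMod ℓ) k) = algebraMap (ZMod ℓ) k := by
    ext a
    simp only [RingHom.comp_apply, frobenius_def, ← map_pow, ZMod.pow_card]
  rw [← hE]
  show WeierstrassCurve.map (WeierstrassCurve.map E (algebraMap (ZMod ℓ) k)) (frobenius k ℓ)
    = WeierstrassCurve.map E (algebraMap (ZMod ℓ) k)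
  rw [WeierstrassCurve.map_map, h1]

/-- points over the prime field, as points of `W` -/
def primePt₀ (hE : IsModel (W := W) E) : E.Point →+ W.Point := pmap (algebraMap (ZMod ℓ) k) hE

theorem primePt₀_injective (hE : IsModel (W := W) E) : Function.Injective (primePt₀ hE) :=
  pmap_injective _ _

/-- prime-field points are fixed by the Frobenius of `W.Point` -/
theorem frobk_primePt₀ (hE : IsModel (W := W) E) (T : E.Point) :
    frobk hE.frobFix (primePt₀ hE T) = primePt₀ hE T := by
  rcases T with _ | ⟨x, y, h⟩
  · change frobk hE.frobFix (primePt₀ hE 0) = primePt₀ hE 0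
    simp only [map_zero]
  · rw [primePt₀, pmap_some]
    obtain ⟨h', e⟩ := frobk_some hE.frobFix
      (hE ▸ (E.map_nonsingular (algebraMap (ZMod ℓ) k).injective x y).mpr h)
    rw [e]
    simp only [← map_pow, ZMod.pow_card]

variable (L : Type v) [Field L] [DecidableEq L] [Algebra k L] [CharP L ℓ]

/-- points over the prime field, as points of `W⁄L` -/
def primePt (hE : IsModel (W := W) E) : E.Point →+ (W⁄L).Point :=
  (constL L).comp (primePt₀ hE)

theorem primePt_injective (hE : IsModel (W := W) E) : Function.Injective (primePt L hE) := by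
  rw [primePt, AddMonoidHom.coe_comp]
  exact (constL_injective L).comp (primePt₀_injective hE)

theorem primePt_some (hE : IsModel (W := W) E) {x y : ZMod ℓ} (h : E.Nonsingular x y) :
    ∃ h' : (W⁄L).Nonsingular (algebraMap k L (algebraMap (ZMod ℓ) k x))
        (algebraMap k L (algebraMap (ZMod ℓ) k y)),
      primePt L hE (Point.some x y h) = Point.some _ _ h' := by
  refine ⟨?_, ?_⟩
  · have h1 : W.Nonsingular (algebraMap (ZMod ℓ) k x) (algebraMap (ZMod ℓ) k y) :=
      hE ▸ (E.map_nonsingular (algebraMap (ZMod ℓ) k).injective x y).mpr h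
    exact (W.map_nonsingular (algebraMap k L).injective _ _).mpr h1
  · rw [primePt, AddMonoidHom.comp_apply, primePt₀, pmap_some]
    obtain ⟨h2, e2⟩ := constL_some L
      (hE ▸ (E.map_nonsingular (algebraMap (ZMod ℓ) k).injective x y).mpr h)
    exact e2

/-- prime-field points are fixed by Frobenius -/
theorem frobL_primePt (hE : IsModel (W := W) E) (T : E.Point) :
    frobL L hE.frobFix (primePt L hE T) = primePt L hE T := by
  rcases T with _ | ⟨x, y, h⟩
  · change frobL L hE.frobFix (primePt L hE 0) = primePt L hE 0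
    simp only [map_zero]
  · obtain ⟨h', e⟩ := primePt_some L hE h
    rw [e]
    obtain ⟨h'', e'⟩ := frobL_some L hE.frobFix h'
    rw [e']
    simp only [← map_pow, ZMod.pow_card]

/-- **Frobenius-fixed points are prime-field points.** -/
theorem mem_range_primePt_of_frobL_eq (hE : IsModel (W := W) E) {P : (W⁄L).Point}
    (h : frobL L hE.frobFix P = P) : P ∈ (primePt L hE).range := by
  rcases P with _ | ⟨x, y, hxy⟩
  · exact ⟨0, map_zero _⟩
  · obtain ⟨h', e⟩ := frobL_some L hE.frobFix hxy
    rw [e] at h
    have hx : x ^ ℓ = x := (Point.some.inj h).1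
    have hy : y ^ ℓ = y := (Point.some.inj h).2
    let _i : Algebra (ZMod ℓ) L := ((algebraMap k L).comp (algebraMap (ZMod ℓ) k)).toAlgebra
    obtain ⟨x₀, hx₀⟩ := mem_range_algebraMap_of_pow_eq hx
    obtain ⟨y₀, hy₀⟩ := mem_range_algebraMap_of_pow_eq hy
    have hx₀' : algebraMap k L (algebraMap (ZMod ℓ) k x₀) = x := hx₀
    have hy₀' : algebraMap k L (algebraMap (ZMod ℓ) k y₀) = y := hy₀
    subst hx₀' hy₀'
    have h1 : W.Nonsingular (algebraMap (ZMod ℓ) k x₀) (algebraMap (ZMod ℓ) k y₀) :=
      (W.map_nonsingular (algebraMap k L).injective _ _).mp hxy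
    have h0 : E.Nonsingular x₀ y₀ := by
      have h2 : (E.map (algebraMap (ZMod ℓ) k)).Nonsingular (algebraMap (ZMod ℓ) k x₀)
          (algebraMap (ZMod ℓ) k y₀) := by
        have hE' : E.map (algebraMap (ZMod ℓ) k) = W := hE
        rw [hE']; exact h1
      exact (E.map_nonsingular (algebraMap (ZMod ℓ) k).injective x₀ y₀).mp h2
    refine ⟨Point.some x₀ y₀ h0, ?_⟩
    obtain ⟨h'', e''⟩ := primePt_some L hE h0
    rw [e'']

end Prime

end Fermat.Agent.S58lib.Cnt
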