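/-
S58 support (block E1, count of `E(𝔽_ℓ)`): the separability estimate at infinity.
For an integral model over a valued field, a point `P = (x, y)` with `1 < v x` and the point
`Q = (x ^ n, y ^ n)` (`2 ≤ n`; e.g. the Frobenius twist of `P`), the difference `P - Q` is an affine
point `(f, g)` with `v f = v x`  (first order in the formal group: `z(P - Q) ≡ z(P)`).
All declarations live in `Fermat.Agent.S58lib.Cnt`.
-/
import Fermat.Agent.S05lib.KerRed.Main

set_option autoImplicit false

namespace Fermat.Agent.S58lib.Cnt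

open WeierstrassCurve WeierstrassCurve.Affine Fermat.Agent.S05lib

variable {K : Type*} [Field K] [DecidableEq K]
variable {Γ₀ : Type*} [LinearOrderedCommGroupWithZero Γ₀]
variable {v : Valuation K Γ₀} {W : WeierstrassCurve.Affine K}

omit [DecidableEq K] in
/-- `v (zc P) = v (x / y)` for an affine point. -/
theorem val_zc_some {x y : K} (h : W.Nonsingular x y) :
    v (zc (Point.some x y h)) = v (x / y) := by
  show v (-x / y) = v (x / y)
  rw [neg_div, Valuation.map_neg]

/-- The main estimate. -/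
theorem val_x_sub_pow (hW : IntegralModel v W) {x y : K} (hP : W.Nonsingular x y)
    (hx : 1 < v x) {n : ℕ} (hn : 2 ≤ n) (hQ : W.Nonsingular (x ^ n) (y ^ n)) :
    ∃ (f g : K) (hfg : W.Nonsingular f g),
      Point.some x y hP - Point.some (x ^ n) (y ^ n) hQ = Point.some f g hfg ∧ v f = v x := by
  set P : W.Point := Point.some x y hP with hPdef
  set Q : W.Point := Point.some (x ^ n) (y ^ n) hQ with hQdef
  set t : Γ₀ := v (x / y) with ht
  have ht1 : t < 1 := val_z_lt_one hW hP.1 hx
  have hy : y ≠ 0 := y_ne_zero_of_one_lt hW hP.1 hx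
  have hx0 : x ≠ 0 := by
    intro h0
    rw [h0, map_zero] at hx
    exact absurd hx (not_lt.mpr zero_le)
  have ht0 : t ≠ 0 := (Valuation.ne_zero_iff v).mpr (div_ne_zero hx0 hy)
  have htpos : 0 < t := zero_lt_iff.mpr ht0
  have htsq : t ^ 2 = (v x)⁻¹ := val_z_sq hW hP.1 hx
  have ht2lt : t ^ 2 < t := pow_lt_self_of_lt_one₀ htpos ht1 (by norm_num)
  have hxn : 1 < v (x ^ n) := by
    rw [map_pow]
    exact one_lt_pow₀ hx (by omega)
  have hPE : InE1 v W P := hx
  have hQE : InE1 v W Q := hxn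
  have hnQE : InE1 v W (-Q) := hQE.neg
  -- `v (zc Q) = t ^ n ≤ t ^ 2`
  have hzQ : v (zc Q) ≤ t ^ 2 := by
    rw [hQdef, val_zc_some, ← div_pow, map_pow]
    exact pow_le_pow_of_le_one zero_le ht1.le hn
  -- `v (zc (-Q)) ≤ t ^ 2`
  have hznQ : v (zc (-Q)) ≤ t ^ 2 := by
    have hneg : -Q = Point.some (x ^ n) (W.negY (x ^ n) (y ^ n))
        ((nonsingular_neg _ _).mpr hQ) := rfl
    have h1 := neg_estimate hW hQ.1 hxn
    have h2 : (v (x ^ n))⁻¹ ≤ t ^ 2 := by
      rw [map_pow, ← inv_pow, ← htsq, ← pow_mul]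
      exact pow_le_pow_of_le_one zero_le ht1.le (by nlinarith)
    rw [hneg]
    show v (-(x ^ n) / W.negY (x ^ n) (y ^ n)) ≤ t ^ 2
    have e : -(x ^ n) / W.negY (x ^ n) (y ^ n)
        = (-(x ^ n) / W.negY (x ^ n) (y ^ n) + -(x ^ n) / y ^ n) - (-(x ^ n) / y ^ n) := by ring
    rw [e]
    refine v.map_sub_le (le_trans h1 h2) ?_
    have : v (zc Q) = v (-(x ^ n) / y ^ n) := rfl
    rw [← this]
    exact hzQ
  have hzP : v (zc P) ≤ t := by rw [hPdef, val_zc_some]
  obtain ⟨hE, hest⟩ := zc_add_estimate hW hPE hnQE ht1 hzP (le_trans hznQ ht2lt.le)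
  -- `v (zc (P - Q)) = t`
  have hval : v (zc (P + -Q)) = t := by
    have e : zc (P + -Q) = zc P + (zc (-Q) + (zc (P + -Q) - zc P - zc (-Q))) := by ring
    have hsmall : v (zc (-Q) + (zc (P + -Q) - zc P - zc (-Q))) < v (zc P) := by
      have : v (zc P) = t := by rw [hPdef, val_zc_some]
      rw [this]
      exact lt_of_le_of_lt (v.map_add_le hznQ hest) ht2lt
    rw [e, Valuation.map_add_eq_of_lt_left v hsmall, hPdef, val_zc_some]
  rw [sub_eq_add_neg]
  rcases hR : P + -Q with _ | ⟨f, g, hfg⟩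
  · rw [hR] at hval
    have : v (zc (Point.zero : W.Point)) = 0 := by
      show v (0 : K) = 0
      exact map_zero v
    rw [this] at hval
    exact absurd hval.symm ht0
  · refine ⟨f, g, hfg, rfl, ?_⟩
    rw [hR] at hval hE
    have hf1 : 1 < v f := hE
    have h3 := val_z_sq hW hfg.1 hf1
    rw [val_zc_some] at hval
    rw [hval, htsq] at h3
    exact inv_injective h3.symm

end Fermat.Agent.S58lib.Cnt
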