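/-
S58 support (block E1, count of `E(𝔽_ℓ)`): the generic point and constant points.
`k` algebraically closed, `W : Affine k` elliptic, `K = FF W`, `G = gen W`.
* `mem_range_constL_of_isAlgebraic` : a point with algebraic `x`-coordinate is constant;
* `gen_add_const` : `G + C` is an affine point with transcendental `x`-coordinate;
* `tau C : FF W →ₐ[k] FF W` (translation by `C`), `map_tau_gen : Point.map (tau C) G = G + C`;
* `two_gen_not_const` : `G + G` is not a constant point.
All declarations live in `Fermat.Agent.S58lib.Cnt`.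
-/
import Fermat.Agent.S58lib.Lat.GenPoint
import Fermat.Agent.S58lib.Cnt.Frob
import Fermat.Agent.S58lib.Cnt.DegVal
import Fermat.Agent.S58lib.Cnt.Sep

set_option autoImplicit false
set_option linter.unusedSectionVars false

noncomputable section

namespace Fermat.Agent.S58lib.Cnt

open Polynomial WeierstrassCurve WeierstrassCurve.Affine Fermat.Agent.S58lib.Lat
  Fermat.Agent.S05lib

universe u v

variable {k : Type u} [Field k] [DecidableEq k] {W : Affine k}

section General

variable {L : Type v} [Field L] [DecidableEq L] [Algebra k L]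

/-- the `x`-coordinate of a point (`0` at the origin) -/
def xCoord : (W⁄L).Point → L
  | .zero => 0
  | .some x _ _ => x

@[simp] theorem xCoord_some {x y : L} (h : (W⁄L).Nonsingular x y) :
    xCoord (Point.some x y h) = x := rfl

theorem xCoord_neg (P : (W⁄L).Point) : xCoord (-P) = xCoord P := by
  rcases P with _ | ⟨x, y, h⟩
  · rfl
  · rfl

/-- two affine points with the same `x`-coordinate are equal or opposite -/
theorem eq_or_eq_neg_of_xCoord_eq {P Q : (W⁄L).Point} (hP : P ≠ 0) (hQ : Q ≠ 0)
    (h : xCoord P = xCoord Q) : P = Q ∨ P = -Q := by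
  rcases P with _ | ⟨x₁, y₁, h₁⟩
  · exact absurd rfl hP
  rcases Q with _ | ⟨x₂, y₂, h₂⟩
  · exact absurd rfl hQ
  have hx : x₁ = x₂ := h
  subst hx
  rcases Y_eq_of_X_eq h₁.1 h₂.1 rfl with hy | hy
  · left; subst hy; rfl
  · right; subst hy; rfl

/-- the base-changed curve is an integral model for a valuation which is `≤ 1` on `k` -/
theorem integralModel_baseChange {Γ₀ : Type*} [LinearOrderedCommGroupWithZero Γ₀]
    (v : Valuation L Γ₀) (hk : ∀ c : k, v (algebraMap k L c) ≤ 1) : IntegralModel v (W⁄L) where
  a₁ := hk _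
  a₂ := hk _
  a₃ := hk _
  a₄ := hk _
  a₆ := hk _

/-- nonzero constant points are not in the kernel of reduction -/
theorem not_inE1_constL {Γ₀ : Type*} [LinearOrderedCommGroupWithZero Γ₀]
    (v : Valuation L Γ₀) (hk : ∀ c : k, v (algebraMap k L c) ≤ 1) {C : W.Point}
    (h : InE1 v (W⁄L) (constL L C)) : C = 0 := by
  rcases C with _ | ⟨x, y, hxy⟩
  · rfl
  · exfalso
    obtain ⟨h', e⟩ := constL_some L hxy
    rw [e] at h
    have h1 : 1 < v (algebraMap k L x) := h
    exact absurd (hk x) (not_le.mpr h1)

variable [IsAlgClosed k]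

/-- over an algebraically closed `k`, algebraic elements of `L` are constants -/
theorem mem_range_of_isAlgebraic {u : L} (hu : IsAlgebraic k u) :
    u ∈ (algebraMap k L).range :=
  hu.isIntegral.mem_range_algebraMap_of_minpoly_splits (K := k) (IsAlgClosed.splits _)

/-- a point with algebraic `x`-coordinate is constant -/
theorem mem_range_constL_of_isAlgebraic {x y : L} (h : (W⁄L).Nonsingular x y)
    (hx : IsAlgebraic k x) : Point.some x y h ∈ (constL (W := W) L).range := by
  obtain ⟨x₀, rfl⟩ := mem_range_of_isAlgebraic hx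
  have heq := h.1
  rw [equation_iff] at heq
  simp only [baseChange_a₁, baseChange_a₂, baseChange_a₃, baseChange_a₄, baseChange_a₆] at heq
  have hy : IsAlgebraic k y := by
    obtain ⟨b, hb⟩ : ∃ b : k, b = W.a₁ * x₀ + W.a₃ := ⟨_, rfl⟩
    obtain ⟨c, hc⟩ : ∃ c : k, c = x₀ ^ 3 + W.a₂ * x₀ ^ 2 + W.a₄ * x₀ + W.a₆ := ⟨_, rfl⟩
    refine ⟨X ^ 2 + C b * X - C c, ?_, ?_⟩
    · intro h0
      have := congrArg (fun p : k[X] => p.coeff 2) h0
      simp [coeff_X_pow] at this
    · simp only [map_sub, map_add, map_mul, map_pow, aeval_X, aeval_C, hb, hc]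
      linear_combination heq
  obtain ⟨y₀, rfl⟩ := mem_range_of_isAlgebraic hy
  have h0 : W.Nonsingular x₀ y₀ := (W.map_nonsingular (algebraMap k L).injective x₀ y₀).mp h
  refine ⟨Point.some x₀ y₀ h0, ?_⟩
  obtain ⟨h', e⟩ := constL_some L h0
  rw [e]

end General

/-! ### The generic point -/

section Gen

variable [W.IsElliptic]

/-- the generic point is not constant -/
theorem gen_not_const : gen W ∉ (constL (W := W) (FF W)).range := by
  rintro ⟨C, hC⟩
  rcases C with _ | ⟨x, y, hxy⟩
  · have : (0 : (W⁄(FF W)).Point) = gen W := by rw [← hC]; exact (map_zero _).symm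
    exact Point.some_ne_zero _ this.symm
  · obtain ⟨h', e⟩ := constL_some (FF W) hxy
    rw [e, gen] at hC
    have hx : algebraMap k (FF W) x = xK W := (Point.some.inj hC).1
    exact transcendental_xK W (hx ▸ isAlgebraic_algebraMap x)

variable [IsAlgClosed k]

/-- `G + C` is an affine point with transcendental `x`-coordinate -/
theorem gen_add_const (C : W.Point) :
    ∃ (ξ η : FF W) (h : (W⁄(FF W)).Nonsingular ξ η),
      gen W + constL (FF W) C = Point.some ξ η h ∧ Transcendental k ξ := by
  rcases hS : gen W + constL (FF W) C with _ | ⟨ξ, η, h⟩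
  · exfalso
    apply gen_not_const (W := W)
    refine ⟨-C, ?_⟩
    rw [map_neg]
    have h0 : gen W + constL (FF W) C = 0 := hS
    exact (eq_neg_of_add_eq_zero_left h0).symm
  · refine ⟨ξ, η, h, rfl, ?_⟩
    intro halg
    obtain ⟨D, hD⟩ := mem_range_constL_of_isAlgebraic h halg
    apply gen_not_const (W := W)
    refine ⟨D - C, ?_⟩
    rw [map_sub, hD, ← hS]
    abel

/-- the `x`-coordinate of `G + C` -/
def xi (C : W.Point) : FF W := (gen_add_const C).choose

/-- the `y`-coordinate of `G + C` -/
def eta (C : W.Point) : FF W := (gen_add_const C).choose_spec.choose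

theorem xi_spec (C : W.Point) :
    ∃ h : (W⁄(FF W)).Nonsingular (xi C) (eta C),
      gen W + constL (FF W) C = Point.some (xi C) (eta C) h ∧ Transcendental k (xi C) :=
  (gen_add_const C).choose_spec.choose_spec

theorem xi_eq_xCoord (C : W.Point) : xi C = xCoord (gen W + constL (FF W) C) := by
  obtain ⟨h, e, -⟩ := xi_spec C
  rw [e]
  rfl

theorem transcendental_xi (C : W.Point) : Transcendental k (xi C) := (xi_spec C).choose_spec.2

/-- translation by the constant point `C`, as a `k`-algebra endomorphism of the function field -/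
def tau (C : W.Point) : FF W →ₐ[k] FF W :=
  pull W (xi C) (eta C) (transcendental_xi C) (xi_spec C).choose.1

theorem tau_xK (C : W.Point) : tau C (xK W) = xi C := pull_xK _ _ _ _

theorem map_tau_gen (C : W.Point) :
    Point.map (W' := W) (tau C) (gen W) = gen W + constL (FF W) C := by
  rw [tau, map_pull_gen, (xi_spec C).choose_spec.1]

/-- there is a valuation on `FF W`, `≤ 1` on `k`, with `1 < v x` -/
theorem exists_valuation_infty :
    ∃ V : ValuationSubring (FF W), (∀ c : k, V.valuation (algebraMap k (FF W) c) ≤ 1) ∧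
      1 < V.valuation (xK W) := by
  obtain ⟨V, hV1, hV2⟩ := exists_valuationSubring_not_mem (transcendental_xK W)
  refine ⟨V, fun c => (V.valuation_le_one_iff _).mpr (hV1 c), ?_⟩
  rw [← not_le, V.valuation_le_one_iff]
  exact hV2

/-- `G + G` is not a constant point -/
theorem two_gen_not_const : gen W + gen W ∉ (constL (W := W) (FF W)).range := by
  rintro ⟨C, hC⟩
  obtain ⟨V, hV1, hV2⟩ := exists_valuation_infty (W := W)
  have hW := integralModel_baseChange (W := W) V.valuation hV1
  have hG : InE1 V.valuation (W⁄(FF W)) (gen W) := hV2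
  have h2 : InE1 V.valuation (W⁄(FF W)) (gen W + gen W) := hG.add hW hG
  rw [← hC] at h2
  have hC0 : C = 0 := not_inE1_constL V.valuation hV1 h2
  rw [hC0, map_zero] at hC
  -- `G = -G`
  have hneg : gen W = -gen W := eq_neg_of_add_eq_zero_left hC.symm
  rw [gen, Point.neg_some] at hneg
  have hy : yK W = (W⁄(FF W)).negY (xK W) (yK W) := (Point.some.inj hneg).2
  rw [← negYK_eq, negYK] at hy
  -- `ι (cK) + 2 y = 0`
  have h0 : algebraMap (RatFunc k) (FF W) (cK W) + algebraMap (RatFunc k) (FF W) 2 * yK W = 0 := by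
    rw [map_ofNat]
    linear_combination hy
  obtain ⟨hc, h2'⟩ := rep_eq_zero W h0
  have h2k : (2 : k) = 0 := by
    have : (RatFunc.C (2 : k) : RatFunc k) = 0 := by rw [map_ofNat]; exact h2'
    exact (map_eq_zero _).mp this
  exact cK_ne_zero_of_two W h2k hc

end Gen

end Fermat.Agent.S58lib.Cnt
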