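/-
S58 support (block E1, count of `E(𝔽_ℓ)`): the root polynomial `A(X) - f B(X)`.
For `k ⊆ K` fields, coprime `A B : k[X]` and `f : K` transcendental over `k`:
* `rootPoly A B f : K[X]` has degree `max (deg A) (deg B)` (we prove `≤`, `≠ 0`, and `= deg A`
  when `deg B < deg A`);
* a root `ξ` (in any extension `Ω`) satisfies `B(ξ) ≠ 0`, `f = A(ξ)/B(ξ)`, `ξ` transcendental;
* if the Wronskian `A'B - AB'` is nonzero there are no multiple roots, so over an algebraically
  closed `Ω` the number of roots is exactly the degree.
All declarations live in `Fermat.Agent.S58lib.Cnt`.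
-/
import Mathlib

set_option autoImplicit false

namespace Fermat.Agent.S58lib.Cnt

open Polynomial

variable {k K : Type*} [Field k] [Field K] [Algebra k K]

/-- The polynomial `A(X) - f B(X)` over `K`. -/
noncomputable def rootPoly (A B : k[X]) (f : K) : K[X] :=
  A.map (algebraMap k K) - C f * B.map (algebraMap k K)

theorem rootPoly_natDegree_le (A B : k[X]) (f : K) :
    (rootPoly A B f).natDegree ≤ max A.natDegree B.natDegree := by
  unfold rootPoly
  refine (natDegree_sub_le _ _).trans ?_
  apply max_le_max
  · exact natDegree_map_le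
  · exact (natDegree_C_mul_le _ _).trans natDegree_map_le

theorem rootPoly_natDegree_eq {A B : k[X]} {f : K} (h : B.natDegree < A.natDegree) :
    (rootPoly A B f).natDegree = A.natDegree := by
  unfold rootPoly
  have hA : (A.map (algebraMap k K)).natDegree = A.natDegree :=
    natDegree_map_eq_of_injective (algebraMap k K).injective A
  rw [natDegree_sub_eq_left_of_natDegree_lt, hA]
  rw [hA]
  exact lt_of_le_of_lt ((natDegree_C_mul_le _ _).trans natDegree_map_le) h

section Ext

variable {Ω : Type*} [Field Ω] [Algebra K Ω] [Algebra k Ω] [IsScalarTower k K Ω]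

theorem aeval_rootPoly (A B : k[X]) (f : K) (ξ : Ω) :
    aeval ξ (rootPoly A B f) = aeval ξ A - algebraMap K Ω f * aeval ξ B := by
  unfold rootPoly
  rw [map_sub, map_mul, aeval_C, aeval_map_algebraMap, aeval_map_algebraMap]

/-- At a root `ξ` of `A - f B` (with `A`, `B` coprime) the denominator does not vanish. -/
theorem aeval_den_ne_zero {A B : k[X]} (hc : IsCoprime A B) {f : K} {ξ : Ω}
    (h : aeval ξ (rootPoly A B f) = 0) : aeval ξ B ≠ 0 := by
  intro hB
  rw [aeval_rootPoly, hB, mul_zero, sub_zero] at h
  obtain ⟨u, w, huw⟩ := hc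
  have := congrArg (aeval ξ) huw
  rw [map_add, map_mul, map_mul, h, hB, mul_zero, mul_zero, add_zero, map_one] at this
  exact zero_ne_one this

theorem eq_div_of_root {A B : k[X]} (hc : IsCoprime A B) {f : K} {ξ : Ω}
    (h : aeval ξ (rootPoly A B f) = 0) : algebraMap K Ω f = aeval ξ A / aeval ξ B := by
  have hB := aeval_den_ne_zero hc h
  rw [aeval_rootPoly, sub_eq_zero] at h
  rw [h, mul_div_assoc, div_self hB, mul_one]

theorem isAlgebraic_aeval {ξ : Ω} (hξ : IsAlgebraic k ξ) (A : k[X]) :
    IsAlgebraic k (aeval ξ A) := by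
  rw [isAlgebraic_iff_isIntegral] at hξ ⊢
  have h1 : aeval ξ A = ((aeval (⟨ξ, hξ⟩ : integralClosure k Ω) A : integralClosure k Ω) : Ω) := by
    rw [← Subalgebra.aeval_coe]
  rw [h1]
  exact (aeval (⟨ξ, hξ⟩ : integralClosure k Ω) A).2

/-- A root of `A - f B` is transcendental over `k` when `f` is. -/
theorem transcendental_of_root {A B : k[X]} (hc : IsCoprime A B) {f : K}
    (hf : Transcendental k f) {ξ : Ω} (h : aeval ξ (rootPoly A B f) = 0) :
    Transcendental k ξ := by
  intro hξ
  apply hf
  have h1 : IsAlgebraic k (algebraMap K Ω f) := by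
    rw [eq_div_of_root hc h, div_eq_mul_inv]
    exact (isAlgebraic_aeval hξ A).mul (IsAlgebraic.inv_iff.mpr (isAlgebraic_aeval hξ B))
  exact (isAlgebraic_algebraMap_iff (algebraMap K Ω).injective).mp h1

/-- `A - f B` is nonzero. -/
theorem rootPoly_ne_zero {A B : k[X]} (hc : IsCoprime A B) {f : K} (hf : Transcendental k f) :
    rootPoly A B f ≠ 0 := by
  intro h0
  -- evaluate at `ξ = 0 : K`: it would be a root, hence transcendental
  have h : aeval (0 : K) (rootPoly A B f) = 0 := by rw [h0, map_zero]
  exact transcendental_of_root (Ω := K) hc hf h isAlgebraic_zero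

/-- With a nonzero Wronskian, a root of `A - f B` is not a root of the derivative. -/
theorem derivative_aeval_ne_zero {A B : k[X]} (hc : IsCoprime A B) {f : K}
    (hf : Transcendental k f) (hw : derivative A * B - A * derivative B ≠ 0) {ξ : Ω}
    (h : aeval ξ (rootPoly A B f) = 0) : aeval ξ (derivative (rootPoly A B f)) ≠ 0 := by
  intro hd
  have hB := aeval_den_ne_zero hc h
  have hf' := eq_div_of_root hc h
  have hξ := transcendental_of_root hc hf h
  apply hξ
  refine ⟨derivative A * B - A * derivative B, hw, ?_⟩
  have hd' : aeval ξ (derivative A) - algebraMap K Ω f * aeval ξ (derivative B) = 0 := by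
    have : derivative (rootPoly A B f)
        = rootPoly (derivative A) (derivative B) f := by
      unfold rootPoly
      rw [derivative_sub, derivative_C_mul, derivative_map, derivative_map]
    rw [this, aeval_rootPoly] at hd
    exact hd
  rw [map_sub, map_mul, map_mul]
  rw [hf'] at hd'
  field_simp at hd'
  linear_combination hd'

/-- Lower bound for the number of roots: over an algebraically closed extension, a nonzero
polynomial all of whose roots are simple and lie in a finite set `T` has degree `≤ #T`. -/
theorem natDegree_le_card_of_roots_subset [IsAlgClosed Ω] {P : K[X]} (hP : P ≠ 0) (T : Finset Ω)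
    (hT : ∀ ξ : Ω, aeval ξ P = 0 → ξ ∈ T)
    (hsimple : ∀ ξ : Ω, aeval ξ P = 0 → aeval ξ (derivative P) ≠ 0) :
    P.natDegree ≤ T.card := by
  classical
  set Q : Polynomial Ω := P.map (algebraMap K Ω) with hQ
  have hQ0 : Q ≠ 0 := (Polynomial.map_ne_zero_iff (algebraMap K Ω).injective).mpr hP
  have hdeg : Q.natDegree = P.natDegree := natDegree_map_eq_of_injective (algebraMap K Ω).injective P
  have hroot : ∀ ξ : Ω, Q.IsRoot ξ ↔ aeval ξ P = 0 := by
    intro ξ
    rw [IsRoot, hQ, eval_map_algebraMap]
  have hcard : Q.roots.card = Q.natDegree := splits_iff_card_roots.mp (IsAlgClosed.splits Q)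
  have hnodup : Q.roots.Nodup := by
    rw [Multiset.nodup_iff_count_le_one]
    intro ξ
    rw [count_roots]
    by_contra hlt
    rw [not_le] at hlt
    obtain ⟨h1, h2⟩ := (one_lt_rootMultiplicity_iff_isRoot hQ0).mp hlt
    have h1' := (hroot ξ).mp h1
    apply hsimple ξ h1'
    rw [IsRoot, hQ, derivative_map, eval_map_algebraMap] at h2
    exact h2
  have hsub : Q.roots.toFinset ⊆ T := by
    intro ξ hξ
    rw [Multiset.mem_toFinset, mem_roots hQ0] at hξ
    exact hT ξ ((hroot ξ).mp hξ)
  calc P.natDegree = Q.roots.card := by rw [hcard, hdeg]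
    _ = Q.roots.toFinset.card := (Multiset.toFinset_card_of_nodup hnodup).symm
    _ ≤ T.card := Finset.card_le_card hsub

end Ext

/-- Upper bound for a family of distinct roots. -/
theorem card_le_natDegree_of_roots {ι : Type*} [Fintype ι] {P : K[X]} (hP : P ≠ 0) (r : ι → K)
    (hinj : Function.Injective r) (hr : ∀ i, aeval (r i) P = 0) :
    Fintype.card ι ≤ P.natDegree := by
  classical
  have h := card_le_degree_of_subset_roots (p := P) (Z := Finset.univ.image r) (by
    intro a ha
    rw [Finset.mem_val, Finset.mem_image] at ha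
    obtain ⟨i, -, rfl⟩ := ha
    rw [mem_roots hP, IsRoot]
    have := hr i
    rwa [coe_aeval_eq_eval] at this)
  rwa [Finset.card_image_of_injective _ hinj, Finset.card_univ] at h


end Fermat.Agent.S58lib.Cnt
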