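/-
S58 support (block E1): **kernel bound by root counting**.
`k` algebraically closed of characteristic `ℓ`, `W : Affine k` elliptic and Frobenius-fixed,
`K = FF W`, `G = gen W`, `ψ = r + s φ`.  If `ψ G = (f, _)` with `f = A(x)/B(x)` in lowest terms and
`f` non-constant, then for every constant point `C` with `ψ C = 0` the `x`-coordinate of `G + C` is a
root of `A(X) - f B(X) ∈ K[X]`, and `C ↦ x(G + C)` is injective.  Hence a family of `n` distinct
points of `ker ψ` forces `n ≤ max (deg A) (deg B)`.
All declarations live in `Fermat.Agent.S58lib.Cnt`.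
-/
import Fermat.Agent.S58lib.Cnt.GenConst
import Fermat.Agent.S58lib.Cnt.Roots

set_option autoImplicit false
set_option linter.unusedSectionVars false

noncomputable section

namespace Fermat.Agent.S58lib.Cnt

open Polynomial WeierstrassCurve WeierstrassCurve.Affine Fermat.Agent.S58lib.Lat

universe u

variable {k : Type u} [Field k] [DecidableEq k] [IsAlgClosed k] {W : Affine k} [W.IsElliptic]
variable {ℓ : ℕ} [Fact ℓ.Prime] [CharP k ℓ] [CharP (FF W) ℓ]

/-- `C ↦ x(G + C)` is injective. -/
theorem xi_injective : Function.Injective (xi (W := W)) := by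
  intro C C' h
  obtain ⟨h1, e1, -⟩ := xi_spec C
  obtain ⟨h2, e2, -⟩ := xi_spec C'
  have hx : xCoord (gen W + constL (FF W) C) = xCoord (gen W + constL (FF W) C') := by
    rw [← xi_eq_xCoord, ← xi_eq_xCoord, h]
  have hne1 : gen W + constL (FF W) C ≠ 0 := by rw [e1]; exact Point.some_ne_zero _
  have hne2 : gen W + constL (FF W) C' ≠ 0 := by rw [e2]; exact Point.some_ne_zero _
  rcases eq_or_eq_neg_of_xCoord_eq hne1 hne2 hx with heq | heq
  · exact constL_injective (FF W) (add_left_cancel heq)
  · exfalso
    apply two_gen_not_const (W := W)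
    refine ⟨-(C + C'), ?_⟩
    rw [map_neg, map_add]
    have : gen W + gen W = -(constL (FF W) C + constL (FF W) C') := by
      rw [eq_neg_iff_add_eq_zero]
      have h0 : gen W + constL (FF W) C + (gen W + constL (FF W) C') = 0 := by
        rw [heq]; exact neg_add_cancel _
      rw [← h0]; abel
    exact this.symm

/-- `tau C` maps a rational function of `x` to the same rational function of `x(G + C)`. -/
theorem tau_aeval (C : W.Point) (A : k[X]) : tau C (aeval (xK W) A) = aeval (xi C) A := by
  rw [← Polynomial.aeval_algHom_apply, tau_xK]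

/-- **The root property**: if `ψ C = 0` then `x(G + C)` is a root of `A - f B`. -/
theorem aeval_xi_rootPoly (hfix : FrobFix W ℓ) (r s : ℤ) {f g : FF W}
    {hfg : (W⁄(FF W)).Nonsingular f g}
    (hψ : psiL (FF W) hfix r s (gen W) = Point.some f g hfg)
    {A B : k[X]} (hB : B ≠ 0) (hf : f = aeval (xK W) A / aeval (xK W) B)
    {C : W.Point} (hC : psik hfix r s C = 0) :
    aeval (xi C) (rootPoly A B f) = 0 := by
  -- `tau C` fixes `ψ G`
  have h1 : Point.map (W' := W) (tau C) (psiL (FF W) hfix r s (gen W))
      = psiL (FF W) hfix r s (gen W) := by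
    rw [map_psiL, map_tau_gen, map_add, psiL_constL, hC, map_zero, add_zero]
  rw [hψ, Point.map_some] at h1
  have hfix_f : tau C f = f := (Point.some.inj h1).1
  have hBx : aeval (xi C) B ≠ 0 := fun h0 => transcendental_xi C ⟨B, hB, h0⟩
  rw [aeval_rootPoly, Algebra.algebraMap_self, RingHom.id_apply, sub_eq_zero]
  have h2 : tau C f = aeval (xi C) A / aeval (xi C) B := by
    rw [hf, map_div₀, tau_aeval, tau_aeval]
  rw [hfix_f] at h2
  rw [h2, div_mul_cancel₀ _ hBx]

/-- a rational function `A(x)/B(x)` in lowest terms of positive degree is not constant -/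
theorem transcendental_of_natDegree_pos {A B : k[X]} (hc : IsCoprime A B) (hB : B ≠ 0)
    (hd : 0 < max A.natDegree B.natDegree) :
    Transcendental k (aeval (xK W) A / aeval (xK W) B) := by
  intro halg
  obtain ⟨c, hcf⟩ := mem_range_of_isAlgebraic halg
  have hBx : aeval (xK W) B ≠ 0 := fun h0 => transcendental_xK W ⟨B, hB, h0⟩
  -- `A = c B`
  have h1 : aeval (xK W) (A - C c * B) = 0 := by
    rw [map_sub, map_mul, aeval_C, hcf, div_mul_cancel₀ _ hBx, sub_self]
  have h2 : A - C c * B = 0 := by
    by_contra hne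
    exact transcendental_xK W ⟨_, hne, h1⟩
  have hA : A = C c * B := sub_eq_zero.mp h2
  -- `B` is a unit
  have hBu : IsUnit B := by
    obtain ⟨u, w, huw⟩ := hc
    rw [hA] at huw
    exact IsUnit.of_mul_eq_one (u * C c + w) (by rw [← huw]; ring)
  have hdB : B.natDegree = 0 := natDegree_eq_zero_of_isUnit hBu
  have hdA : A.natDegree = 0 := by
    rw [hA]
    exact Nat.eq_zero_of_le_zero (le_trans (natDegree_C_mul_le _ _) (le_of_eq hdB))
  rw [hdA, hdB] at hd
  exact absurd hd (by simp)

/-- **Kernel bound**: an injective family of points of `ker (r + s φ)` has at most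
`max (deg A) (deg B)` members, where `x((r + s φ) G) = A(x) / B(x)`. -/
theorem card_le_of_psik_eq_zero (hfix : FrobFix W ℓ) (r s : ℤ) {f g : FF W}
    {hfg : (W⁄(FF W)).Nonsingular f g}
    (hψ : psiL (FF W) hfix r s (gen W) = Point.some f g hfg)
    {A B : k[X]} (hc : IsCoprime A B) (hB : B ≠ 0) (hf : f = aeval (xK W) A / aeval (xK W) B)
    (hft : Transcendental k f)
    {ι : Type*} [Finite ι] (c : ι → W.Point) (hinj : Function.Injective c)
    (hker : ∀ i, psik hfix r s (c i) = 0) :
    Nat.card ι ≤ max A.natDegree B.natDegree := by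
  have := Fintype.ofFinite ι
  rw [Nat.card_eq_fintype_card]
  refine le_trans ?_ (rootPoly_natDegree_le A B f)
  exact card_le_natDegree_of_roots (rootPoly_ne_zero hc hft) (fun i => xi (c i))
    (xi_injective.comp hinj) (fun i => aeval_xi_rootPoly hfix r s hψ hB hf (hker i))

end Fermat.Agent.S58lib.Cnt
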