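/-
S58 support (block E1, count of `E(𝔽_ℓ)`): the Wronskian criterion.
For coprime `A B : k[X]` over a field of characteristic `ℓ`, `A' B = A B'` forces `A' = B' = 0`,
hence `ℓ ∣ deg A` and `ℓ ∣ deg B`.
All declarations live in `Fermat.Agent.S58lib.Cnt`.
-/
import Mathlib

set_option autoImplicit false

namespace Fermat.Agent.S58lib.Cnt

open Polynomial

variable {k : Type*} [Field k]

/-- A polynomial dividing its own derivative has zero derivative. -/
theorem derivative_eq_zero_of_dvd (A : k[X]) (h : A ∣ derivative A) : derivative A = 0 := by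
  by_contra hne
  have hA0 : A ≠ 0 := by
    rintro rfl
    exact hne (by simp)
  have h1 : A.natDegree ≤ (derivative A).natDegree := natDegree_le_of_dvd h hne
  by_cases hd : A.natDegree = 0
  · have : derivative A = 0 := by
      rw [eq_C_of_natDegree_eq_zero hd, derivative_C]
    exact hne this
  · have := natDegree_derivative_lt hd
    omega

/-- The Wronskian criterion: for coprime `A`, `B`, `A' B = A B'` forces `A' = 0` and `B' = 0`. -/
theorem derivative_eq_zero_of_wronskian {A B : k[X]} (hc : IsCoprime A B)
    (hw : derivative A * B = A * derivative B) : derivative A = 0 ∧ derivative B = 0 := by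
  constructor
  · apply derivative_eq_zero_of_dvd
    have h1 : A ∣ derivative A * B := ⟨derivative B, hw⟩
    exact hc.dvd_of_dvd_mul_right h1
  · apply derivative_eq_zero_of_dvd
    have h1 : B ∣ A * derivative B := ⟨derivative A, by rw [← hw]; ring⟩
    exact hc.symm.dvd_of_dvd_mul_left h1

/-- In characteristic `ℓ`, a polynomial with zero derivative has degree divisible by `ℓ`. -/
theorem dvd_natDegree_of_derivative_eq_zero (ℓ : ℕ) [CharP k ℓ] (hℓ : ℓ ≠ 0) {A : k[X]}
    (h : derivative A = 0) : ℓ ∣ A.natDegree := by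
  have := expand_contract ℓ h hℓ
  rw [← this, natDegree_expand]
  exact dvd_mul_left _ _

/-- If not both degrees are divisible by the characteristic, the Wronskian of a coprime pair is
nonzero. -/
theorem wronskian_ne_zero (ℓ : ℕ) [CharP k ℓ] (hℓ : ℓ ≠ 0) {A B : k[X]} (hc : IsCoprime A B)
    (hdeg : ¬ (ℓ ∣ A.natDegree ∧ ℓ ∣ B.natDegree)) :
    derivative A * B - A * derivative B ≠ 0 := by
  intro h
  obtain ⟨hA, hB⟩ := derivative_eq_zero_of_wronskian hc (sub_eq_zero.mp h)
  exact hdeg ⟨dvd_natDegree_of_derivative_eq_zero ℓ hℓ hA, dvd_natDegree_of_derivative_eq_zero ℓ hℓ hB⟩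

end Fermat.Agent.S58lib.Cnt
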