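/-
S58 support (block E1): **`deg (1 - φ) = #E(𝔽_ℓ)`** by root counting.
`k` algebraically closed, `E` a model over `ZMod ℓ` of the elliptic curve `W : Affine k`,
`K = FF W`, `G = gen W`.  If `G - φ G = (f, _)` and `f = A(x)/B(x)` in lowest terms then
`max (deg A) (deg B) = #E(ZMod ℓ)`.
* `val_x_gen_sub_frob` : at a valuation at infinity, `v f = v x` (so `deg A = deg B + 1`);
* `card_le` (from `KerBound`) : `#E(𝔽_ℓ) ≤ deg`;
* `natDegree_le_card` : `deg ≤ #E(𝔽_ℓ)` (every root of `A - f B` over `K̄` is `x(G + T)`,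
  `T ∈ E(𝔽_ℓ)`, and there is no multiple root).
All declarations live in `Fermat.Agent.S58lib.Cnt`.
-/
import Fermat.Agent.S58lib.Cnt.KerBound
import Fermat.Agent.S58lib.Cnt.Wronskian
import Fermat.Prelude.Def_FLTPrelim_Modularity

set_option autoImplicit false
set_option linter.unusedSectionVars false

noncomputable section

namespace Fermat.Agent.S58lib.Cnt

open Polynomial WeierstrassCurve WeierstrassCurve.Affine Fermat.Agent.S58lib.Lat
  Fermat.Agent.S05lib

universe u

variable {k : Type u} [Field k] [DecidableEq k] [IsAlgClosed k] {W : Affine k} [W.IsElliptic]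
variable {ℓ : ℕ} [Fact ℓ.Prime] [CharP k ℓ] [CharP (FF W) ℓ]

/-- `G - φ G` is an affine point whose `x`-coordinate has the valuation of `x` at infinity. -/
theorem val_x_gen_sub_frob (hfix : FrobFix W ℓ) {Γ₀ : Type*} [LinearOrderedCommGroupWithZero Γ₀]
    (v : Valuation (FF W) Γ₀) (hk : ∀ c : k, v (algebraMap k (FF W) c) ≤ 1) (hx : 1 < v (xK W)) :
    ∃ (f g : FF W) (hfg : (W⁄(FF W)).Nonsingular f g),
      gen W - frobL (FF W) hfix (gen W) = Point.some f g hfg ∧ v f = v (xK W) := by
  have hW := integralModel_baseChange (W := W) v hk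
  obtain ⟨h', e⟩ := frobL_some (FF W) hfix (nonsingular_generic W)
  have h2 : 2 ≤ ℓ := (Fact.out : ℓ.Prime).two_le
  obtain ⟨f, g, hfg, e2, hv⟩ := val_x_sub_pow hW (nonsingular_generic W) hx h2 h'
  refine ⟨f, g, hfg, ?_, hv⟩
  rw [gen, e]
  exact e2

section Data

variable (hfix : FrobFix W ℓ) {f g : FF W} {hfg : (W⁄(FF W)).Nonsingular f g}
  (hψ : gen W - frobL (FF W) hfix (gen W) = Point.some f g hfg)
  {A B : k[X]} (hc : IsCoprime A B) (hB : B ≠ 0) (hf : f = aeval (xK W) A / aeval (xK W) B)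

include hψ in
/-- at a valuation at infinity, `v f = v x` -/
theorem val_f_eq {Γ₀ : Type*} [LinearOrderedCommGroupWithZero Γ₀]
    (v : Valuation (FF W) Γ₀) (hk : ∀ c : k, v (algebraMap k (FF W) c) ≤ 1) (hx : 1 < v (xK W)) :
    v f = v (xK W) := by
  obtain ⟨f', g', hfg', e, hv⟩ := val_x_gen_sub_frob hfix v hk hx
  rw [hψ] at e
  rw [(Point.some.inj e).1]
  exact hv

include hψ in
/-- `f` is not constant -/
theorem transcendental_f : Transcendental k f := by
  intro halg
  obtain ⟨V, hV1, hV2⟩ := exists_valuation_infty (W := W)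
  obtain ⟨c, rfl⟩ := mem_range_of_isAlgebraic halg
  have := val_f_eq hfix hψ V.valuation hV1 hV2
  rw [← this] at hV2
  exact absurd (hV1 c) (not_le.mpr hV2)

include hψ hB hf in
/-- `deg A = deg B + 1` -/
theorem natDegree_eq_succ : A.natDegree = B.natDegree + 1 := by
  obtain ⟨V, hV1, hV2⟩ := exists_valuation_infty (W := W)
  have hv := val_f_eq hfix hψ V.valuation hV1 hV2
  have hA : A ≠ 0 := by
    rintro rfl
    rw [map_zero, zero_div] at hf
    rw [hf, map_zero] at hv
    rw [← hv] at hV2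
    exact absurd hV2 (not_lt.mpr zero_le)
  rw [hf] at hv
  exact natDegree_eq_succ_of_val_div V.valuation hV1 hV2 hA hB hv

include hψ hc hB hf in
/-- the Wronskian of `(A, B)` does not vanish -/
theorem wronskian_ne_zero' : derivative A * B - A * derivative B ≠ 0 := by
  have hdeg := natDegree_eq_succ hfix hψ hB hf
  have hℓ : ℓ.Prime := Fact.out
  apply wronskian_ne_zero ℓ hℓ.ne_zero hc
  rintro ⟨h1, h2⟩
  rw [hdeg] at h1
  have : ℓ ∣ 1 := (Nat.dvd_add_right h2).mp h1
  exact hℓ.one_lt.ne' (Nat.dvd_one.mp this)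

end Data

/-! ### The lower bound: every root of `A - f B` over `K̄` is `x(G + T)`, `T ∈ E(𝔽_ℓ)` -/

section Lower

omit [IsAlgClosed k] [W.IsElliptic] [CharP k ℓ] [CharP (FF W) ℓ] [DecidableEq k] in
/-- over an algebraically closed field every `x` is the abscissa of a point -/
theorem exists_equation {L : Type*} [Field L] [IsAlgClosed L] [Algebra k L] (ξ : L) :
    ∃ η : L, (W⁄L).Equation ξ η := by
  obtain ⟨b, hb⟩ : ∃ b : L, b = algebraMap k L W.a₁ * ξ + algebraMap k L W.a₃ := ⟨_, rfl⟩
  obtain ⟨c, hc⟩ : ∃ c : L, c = ξ ^ 3 + algebraMap k L W.a₂ * ξ ^ 2 + algebraMap k L W.a₄ * ξ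
      + algebraMap k L W.a₆ := ⟨_, rfl⟩
  have hdeg : (X ^ 2 + C b * X - C c : L[X]).degree ≠ 0 := by
    have : (X ^ 2 + C b * X - C c : L[X]).degree = 2 := by compute_degree!
    rw [this]; norm_num
  obtain ⟨η, hη⟩ := IsAlgClosed.exists_root _ hdeg
  refine ⟨η, ?_⟩
  rw [equation_iff]
  simp only [baseChange_a₁, baseChange_a₂, baseChange_a₃, baseChange_a₄, baseChange_a₆]
  simp only [IsRoot, eval_sub, eval_add, eval_mul, eval_pow, eval_X, eval_C, hb, hc] at hη
  linear_combination hη

variable {E : Affine (ZMod ℓ)} [Algebra (ZMod ℓ) k] (hE : IsModel (W := W) E)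
  {f g : FF W} {hfg : (W⁄(FF W)).Nonsingular f g}
  (hψ : gen W - frobL (FF W) hE.frobFix (gen W) = Point.some f g hfg)
  {A B : k[X]} (hc : IsCoprime A B) (hB : B ≠ 0) (hf : f = aeval (xK W) A / aeval (xK W) B)

include hψ hc hf in
/-- **every root of `A - f B` in the algebraic closure of `K` is the abscissa of `G + T`** -/
theorem root_mem (ξ : AlgebraicClosure (FF W)) (hξ : aeval ξ (rootPoly A B f) = 0) :
    ∃ T : E.Point, ξ = algebraMap (FF W) (AlgebraicClosure (FF W)) (xi (primePt₀ hE T)) := by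
  classical
  have hft := transcendental_f hE.frobFix hψ
  have hξt : Transcendental k ξ := transcendental_of_root hc hft hξ
  obtain ⟨η, hη⟩ := exists_equation (W := W) ξ
  obtain ⟨ι, hι⟩ : ∃ ι : FF W →ₐ[k] AlgebraicClosure (FF W), ι = pull W ξ η hξt hη := ⟨_, rfl⟩
  obtain ⟨j, hj⟩ : ∃ j : FF W →ₐ[k] AlgebraicClosure (FF W),
      j = IsScalarTower.toAlgHom k (FF W) (AlgebraicClosure (FF W)) := ⟨_, rfl⟩
  have hιG : Point.map (W' := W) ι (gen W) = Point.some ξ η (nonsingular_of_equation hη) := by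
    rw [hι]; exact map_pull_gen ξ η hξt hη
  have hιx : ι (xK W) = ξ := by rw [hι]; exact pull_xK _ _ _ _
  have hjf : ∀ z : FF W, j z = algebraMap (FF W) (AlgebraicClosure (FF W)) z := by
    intro z; rw [hj]; rfl
  -- the images of `D = G - φ G`
  have hιD : Point.map (W' := W) ι (Point.some f g hfg) = Point.map (W' := W) ι (gen W)
      - frobL (AlgebraicClosure (FF W)) hE.frobFix (Point.map (W' := W) ι (gen W)) := by
    rw [← hψ, map_sub, map_frobL]
  have hjD : Point.map (W' := W) j (Point.some f g hfg) = Point.map (W' := W) j (gen W)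
      - frobL (AlgebraicClosure (FF W)) hE.frobFix (Point.map (W' := W) j (gen W)) := by
    rw [← hψ, map_sub, map_frobL]
  -- equal abscissae
  have hιf : ι f = j f := by
    rw [hjf, eq_div_of_root hc hξ, hf, map_div₀, ← Polynomial.aeval_algHom_apply,
      ← Polynomial.aeval_algHom_apply, hιx]
  have hxx : xCoord (Point.map (W' := W) ι (Point.some f g hfg))
      = xCoord (Point.map (W' := W) j (Point.some f g hfg)) := by
    rw [Point.map_some, Point.map_some, xCoord_some, xCoord_some, hιf]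
  have hne1 : Point.map (W' := W) ι (Point.some f g hfg) ≠ 0 := by
    rw [Point.map_some]; exact Point.some_ne_zero _
  have hne2 : Point.map (W' := W) j (Point.some f g hfg) ≠ 0 := by
    rw [Point.map_some]; exact Point.some_ne_zero _
  -- a general consequence: `Ψ = ε G' + T`
  have key : ∀ (Ψ G' : (W⁄(AlgebraicClosure (FF W))).Point),
      Ψ - frobL _ hE.frobFix Ψ = G' - frobL _ hE.frobFix G' →
      ∃ T : E.Point, Ψ = G' + primePt (AlgebraicClosure (FF W)) hE T := by
    intro Ψ G' h
    have hfixed : frobL (AlgebraicClosure (FF W)) hE.frobFix (Ψ - G') = Ψ - G' := by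
      rw [map_sub]
      have h' : Ψ - G' = frobL _ hE.frobFix Ψ - frobL _ hE.frobFix G' := by
        rw [sub_eq_sub_iff_add_eq_add] at h ⊢
        rw [h, add_comm]
      exact h'.symm
    obtain ⟨T, hT⟩ := mem_range_primePt_of_frobL_eq (AlgebraicClosure (FF W)) hE hfixed
    exact ⟨T, by rw [hT]; abel⟩
  -- the abscissa of `j (G + C)`
  have hxi : ∀ C : W.Point, xCoord (Point.map (W' := W) j (gen W + constL (FF W) C))
      = algebraMap (FF W) (AlgebraicClosure (FF W)) (xi C) := by
    intro C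
    obtain ⟨h1, e1, -⟩ := xi_spec C
    rw [e1, Point.map_some, xCoord_some, hjf]
  have hprime : ∀ T : E.Point, primePt (AlgebraicClosure (FF W)) hE T
      = Point.map (W' := W) j (constL (FF W) (primePt₀ hE T)) := by
    intro T
    rw [map_constL]
    rfl
  rcases eq_or_eq_neg_of_xCoord_eq hne1 hne2 hxx with h | h
  · rw [hιD, hjD] at h
    obtain ⟨T, hT⟩ := key _ _ h
    refine ⟨T, ?_⟩
    rw [hprime, ← map_add] at hT
    have := congrArg xCoord hT
    rw [hιG, xCoord_some, hxi] at this
    exact this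
  · rw [hιD, hjD] at h
    have h' : Point.map (W' := W) ι (gen W) - frobL _ hE.frobFix (Point.map (W' := W) ι (gen W))
        = (-Point.map (W' := W) j (gen W))
          - frobL _ hE.frobFix (-Point.map (W' := W) j (gen W)) := by
      rw [h, map_neg]; abel
    obtain ⟨T, hT⟩ := key _ _ h'
    refine ⟨-T, ?_⟩
    have hT' : Point.map (W' := W) ι (gen W)
        = -Point.map (W' := W) j (gen W + constL (FF W) (primePt₀ hE (-T))) := by
      rw [hT, map_add, ← hprime, map_neg]; abel
    have := congrArg xCoord hT'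
    rw [hιG, xCoord_some, xCoord_neg, hxi] at this
    exact this

end Lower

/-! ### The count -/

section Final

variable {E : Affine (ZMod ℓ)} [Algebra (ZMod ℓ) k] (hE : IsModel (W := W) E)
  {f g : FF W} {hfg : (W⁄(FF W)).Nonsingular f g}
  (hψ : gen W - frobL (FF W) hE.frobFix (gen W) = Point.some f g hfg)
  {A B : k[X]} (hc : IsCoprime A B) (hB : B ≠ 0) (hf : f = aeval (xK W) A / aeval (xK W) B)

include hψ hc hB hf in
/-- upper bound `#E(𝔽_ℓ) ≤ deg` -/
theorem card_le_max_natDegree : Nat.card E.Point ≤ max A.natDegree B.natDegree := by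
  have hft := transcendental_f hE.frobFix hψ
  have hψ' : psiL (FF W) hE.frobFix 1 (-1) (gen W) = Point.some f g hfg := by
    rw [psiL_apply, one_zsmul, neg_one_zsmul, ← sub_eq_add_neg]
    exact hψ
  refine card_le_of_psik_eq_zero hE.frobFix 1 (-1) hψ' hc hB hf hft (primePt₀ hE)
    (primePt₀_injective hE) ?_
  intro T
  rw [psik_apply, one_zsmul, neg_one_zsmul, frobk_primePt₀, add_neg_cancel]

include hψ hc hB hf in
/-- lower bound `deg ≤ #E(𝔽_ℓ)` -/
theorem natDegree_le_card : A.natDegree ≤ Nat.card E.Point := by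
  classical
  have hft := transcendental_f hE.frobFix hψ
  have hdeg := natDegree_eq_succ hE.frobFix hψ hB hf
  have hw := wronskian_ne_zero' hE.frobFix hψ hc hB hf
  have hP : (rootPoly A B f).natDegree = A.natDegree :=
    rootPoly_natDegree_eq (by omega)
  have hP0 : rootPoly A B f ≠ 0 := rootPoly_ne_zero hc hft
  have := Fintype.ofFinite E.Point
  set T : Finset (AlgebraicClosure (FF W)) := Finset.univ.image
    (fun t : E.Point => algebraMap (FF W) (AlgebraicClosure (FF W)) (xi (primePt₀ hE t))) with hT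
  have h1 := natDegree_le_card_of_roots_subset (Ω := AlgebraicClosure (FF W)) hP0 T
    (fun ξ hξ => by
      obtain ⟨t, ht⟩ := root_mem hE hψ hc hf ξ hξ
      rw [hT, Finset.mem_image]
      exact ⟨t, Finset.mem_univ _, ht.symm⟩)
    (fun ξ hξ => derivative_aeval_ne_zero hc hft hw hξ)
  rw [hP] at h1
  refine le_trans h1 ?_
  rw [Nat.card_eq_fintype_card]
  exact le_trans Finset.card_image_le (le_of_eq Finset.card_univ)

include hψ hc hB hf in
/-- **`deg (1 - φ) = #E(𝔽_ℓ)`**: if `x(G - φ G) = A(x)/B(x)` in lowest terms then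
`max (deg A) (deg B) = #E(ZMod ℓ)`. -/
theorem max_natDegree_eq_card : max A.natDegree B.natDegree = Nat.card E.Point := by
  have hdeg := natDegree_eq_succ hE.frobFix hψ hB hf
  apply le_antisymm
  · rw [max_eq_left (by omega)]
    exact natDegree_le_card hE hψ hc hB hf
  · exact card_le_max_natDegree hE hψ hc hB hf

end Final

end Fermat.Agent.S58lib.Cnt
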