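/-
S58 support (block E1): **the point count in the shape `Lat/Core` consumes**:
`xdeg (G - Φ G) = #E(ZMod ℓ)` for `W = E⁄k`, `Φ = Lat.frobPt` (helper2), `xdeg` = helper1's degree.
All declarations live in `Fermat.Agent.S58lib.Cnt`.
-/
import Fermat.Agent.S58lib.Cnt.Count
import Fermat.Agent.S58lib.Lat.Deg

set_option autoImplicit false
set_option linter.unusedSectionVars false

noncomputable section

namespace Fermat.Agent.S58lib.Cnt

open Polynomial WeierstrassCurve WeierstrassCurve.Affine Fermat.Agent.S58lib.Lat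
  Fermat.Agent.S58lib.Par

universe u

section General

variable {k : Type u} [Field k] [DecidableEq k] [IsAlgClosed k] {W : Affine k} [W.IsElliptic]
variable {ℓ : ℕ} [Fact ℓ.Prime] [CharP k ℓ]

/-- helper2's Frobenius is the Frobenius of `Cnt` -/
theorem frobPt_eq_frobL (hfix : W.map (frobenius k ℓ) = W) :
    Lat.frobPt ℓ (FF W) hfix = frobL (FF W) hfix := rfl

/-- **`xdeg (G - Φ G) = #E(ZMod ℓ)`** for any model `E` of `W` over the prime field -/
theorem xdeg_gen_sub_frobPt {E : Affine (ZMod ℓ)} [Algebra (ZMod ℓ) k] (hE : IsModel (W := W) E)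
    (hfix : W.map (frobenius k ℓ) = W) :
    xdeg W (gen W - Lat.frobPt ℓ (FF W) hfix (gen W)) = Nat.card E.Point := by
  obtain ⟨V, hV1, hV2⟩ := exists_valuation_infty (W := W)
  obtain ⟨f, g, hfg, e, -⟩ := val_x_gen_sub_frob hE.frobFix V.valuation hV1 hV2
  have hmem : gen W - Lat.frobPt ℓ (FF W) hfix (gen W) ∈ Hsub W :=
    (Hsub W).sub_mem gen_mem_Hsub (frobPt_mem_Hsub hfix gen_mem_Hsub)
  have e' : gen W - Lat.frobPt ℓ (FF W) hfix (gen W) = Point.some f g hfg := e
  have hrat := xRat_of_mem_Hsub hmem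
  rw [e'] at hrat
  obtain ⟨a, b, hb, hc, hx⟩ := (xRat_some_iff hfg).mp hrat
  rw [e', xdeg_some hfg hb hc hx]
  rw [algebraMap_poly_FF, algebraMap_poly_FF] at hx
  exact max_natDegree_eq_card hE e hc hb hx

end General

/-- the count in the exact shape of `Lat.frobCore_of_count` -/
theorem count_baseChange {ℓ : ℕ} [Fact ℓ.Prime] (E : WeierstrassCurve (ZMod ℓ)) (k : Type u)
    [Field k] [DecidableEq k] [Algebra (ZMod ℓ) k] [CharP k ℓ] [IsAlgClosed k]
    [(E⁄k : Affine k).IsElliptic]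
    (hfix : ((E⁄k : Affine k)).map (frobenius k ℓ) = (E⁄k : Affine k)) :
    (xdeg (E⁄k : Affine k) (gen (E⁄k : Affine k) -
        Lat.frobPt ℓ (FF (E⁄k : Affine k)) hfix (gen (E⁄k : Affine k))) : ℤ) = (E.card : ℤ) := by
  have hE : IsModel (W := (E⁄k : Affine k)) (E : Affine (ZMod ℓ)) := rfl
  rw [xdeg_gen_sub_frobPt hE hfix]
  rfl

end Fermat.Agent.S58lib.Cnt
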