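/-
S58 support (block E1, end of the chain): **`FrobCore`** of the S58 interface, from helper2's
`Lat.frobCore_of_count` (relation (R) and kernel bound (K), given the count) and the count
`Cnt.count_baseChange` (`xdeg (G - Φ G) = #E(ZMod ℓ)`).
All declarations live in `Fermat.Agent.S58lib.Cnt`.
-/
import Fermat.Agent.S58lib.Lat.Core
import Fermat.Agent.S58lib.Cnt.Final

set_option autoImplicit false

noncomputable section

namespace Fermat.Agent.S58lib.Cnt

open WeierstrassCurve WeierstrassCurve.Affine

/-- **`FrobCore`**: for every elliptic curve `E` over `ZMod ℓ` and every algebraically closed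
field `k ⊇ ZMod ℓ`, the `ℓ`-power Frobenius `φ` of `E(k)` satisfies `φ² - a φ + ℓ = 0` with
`a = ℓ + 1 - #E(ZMod ℓ)`, and `#X ≤ c² - a c + ℓ` for every finite subgroup `X` on which `φ = c`. -/
theorem frobCore : Fermat.Agent.S58lib.FrobCore := by
  intro ℓ _ E hΔ k _ _ _ _
  have : CharP k ℓ := Lat.charP_of_algebra_zmod (ℓ := ℓ) k
  have : (E⁄k : Affine k).IsElliptic := Lat.isElliptic_baseChange_zmod E k hΔ
  have hfix := Lat.map_frobenius_baseChange_zmod E k
  exact Lat.frobCore_of_count hfix (count_baseChange E k hfix)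

end Fermat.Agent.S58lib.Cnt
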